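import Mathlib
import Fermat.Agent.H66.ORD.DescDict
import Fermat.Agent.H84.ORD.NodalSpecA
import Fermat.Agent.H7.SS2.RegLModel
import Fermat.Agent.H34.KLM.DVR
import Fermat.Agent.H70.SS.RatPlaceModular

/-!
# P-ORD, block B1, row B1-D-HART, half [TOTI] : every centre lies on a component (helper45)

Level `M p`, `p` prime, `p ∤ M`.

* `model_mul_eq_pi_mul` (model level, `(K₁, A₀)`, chart `y = j` or `j⁻¹`) : for `a, b ∈ B(y)` with
  `a ∈ 𝔪_∞` and `b ∈ 𝔪_0`, `a b ∈ ϖ B(y)`  (`𝔮_∞ 𝔮_0 ⊆ ϖ B`; from helper7's `TwoComp`).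
* `nmChart_le_valuationSubring` : the `ℚ̄`-chart `B̄(y)` lies in every valuation subring of `F`
  containing `A` and `y`; `nmChart_le_nmComp` : every `f ∈ B̄(y_P)` has a value in `A` at `P`.
* `nmTotIdeal : NmTotIdealStatement M p` : **[TOTI]**, every centre lies on `C_∞` or on `C_0`
  (ideal form), by descent to a number field with helper66's dictionary.
-/

set_option autoImplicit false
set_option maxSynthPendingDepth 3
set_option linter.unusedSectionVars false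
set_option linter.unusedVariables false
set_option linter.style.haveILetI false
set_option synthInstance.maxHeartbeats 400000
set_option maxHeartbeats 1600000

noncomputable section

namespace Fermat.Agent.H45.ORD

open ModularCurve AlgebraicCurve Polynomial
open Fermat.Agent.H22.KL Fermat.Agent.H7.SS Fermat.Agent.H7.SS2 Fermat.Agent.H93.KL
open Fermat.Agent.H9.E6 Fermat.Agent.H66 Fermat.Agent.H84.ORD
open Fermat.Agent.H72.FF Fermat.Agent.H82.SS Fermat.Agent.H11.SS2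

/-! ### Model level -/

section Model

variable (M q : ℕ) [NeZero M] [NeZero q]
  (K₁ : Type) [Field K₁] [Algebra ℚ K₁] [FiniteDimensional ℚ K₁]
  (A₀ : Type) [CommRing A₀] [IsDomain A₀] [IsDiscreteValuationRing A₀]
  [Algebra A₀ K₁] [IsFractionRing A₀ K₁]
  [Algebra A₀ (ModelField K₁ (M * q))] [IsScalarTower A₀ K₁ (ModelField K₁ (M * q))]

/-- `𝔮_∞ 𝔮_0 ⊆ ϖ B(y)` in both charts. -/
theorem model_mul_eq_pi_mul (hq : q.Prime) (hqM : ¬ q ∣ M) (hqA : ¬ IsUnit ((q : ℕ) : A₀))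
    (ϖ : A₀) (hϖ : Irreducible ϖ)
    (x : ModelField K₁ (M * q)) (hx : (x : LaurentSeries K₁) = coeffEmb K₁ jq)
    (W : ModelField K₁ (M * q) ≃ₐ[K₁] ModelField K₁ (M * q)) (hW : IsAtkinLehnerModel K₁ M q W)
    (y : ModelField K₁ (M * q)) (hy : y = x ∨ y = x⁻¹)
    {a b : ModelField K₁ (M * q)} (ha : a ∈ chartClosure A₀ (ModelField K₁ (M * q)) y)
    (hb : b ∈ chartClosure A₀ (ModelField K₁ (M * q)) y)
    (ha1 : a ∈ (vInf K₁ A₀ (M * q)).nonunits)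
    (hb2 : b ∈ (vZero K₁ A₀ (M * q) W).nonunits) :
    ∃ c ∈ chartClosure A₀ (ModelField K₁ (M * q)) y,
      a * b = algebraMap A₀ (ModelField K₁ (M * q)) ϖ * c := by
  have hT : Transcendental A₀ x := Fermat.Agent.H58.modelTranscendental_jq (M * q) K₁ A₀ x hx
  have hinj := model_algebraMap_injective M q K₁ A₀
  have key : ∀ y' : ModelField K₁ (M * q), Transcendental A₀ y' →
      TwoComp A₀ (ModelField K₁ (M * q)) ϖ y' (vInf K₁ A₀ (M * q)) (vZero K₁ A₀ (M * q) W) →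
      a ∈ chartClosure A₀ (ModelField K₁ (M * q)) y' →
      b ∈ chartClosure A₀ (ModelField K₁ (M * q)) y' →
      ∃ c ∈ chartClosure A₀ (ModelField K₁ (M * q)) y',
        a * b = algebraMap A₀ (ModelField K₁ (M * q)) ϖ * c := by
    intro y' hyT hTC ha' hb'
    have h3 : a * b ∈ (vInf K₁ A₀ (M * q)).nonunits :=
      nonunits_mul_mem (hinj := hinj) (hϖ := hϖ) (hy := hyT) ha1 (hTC.mem₁ hinj hϖ hyT hb')
    have h4 : a * b ∈ (vZero K₁ A₀ (M * q) W).nonunits :=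
      mem_mul_nonunits (hinj := hinj) (hϖ := hϖ) (hy := hyT) (hTC.mem₂ hinj hϖ hyT ha') hb2
    obtain ⟨c, hc⟩ := hTC.exists_eq_mul hinj hϖ hyT (mul_mem ha' hb') h3 h4
    exact ⟨c, c.2, hc⟩
  rcases hy with rfl | rfl
  · exact key _ hT (twoComp_model M q K₁ A₀ hqA ϖ hϖ _ hx W hW hq hqM) ha hb
  · exact key _ (Fermat.Agent.H89.klg_transcendental_inv hT)
      (twoComp_model_inv M q K₁ A₀ hqA ϖ hϖ x hx W hW hq hqM) ha hb

end Model

/-! ### The chart lies in the composite valuation ring -/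

section Chart

variable {N : ℕ} (A : ValuationSubring Qb)

/-- The `ℚ̄`-chart `B̄(y)` lies in every valuation subring of `F` containing `A` and `y`. -/
theorem nmChart_le_valuationSubring (V : ValuationSubring (FLb N)) (y : FLb N)
    (hA : ∀ c ∈ A, algebraMap Qb (FLb N) c ∈ V) (hy : y ∈ V) {f : FLb N}
    (hf : f ∈ nmChart N A y) : f ∈ V := by
  have hle : ∀ z ∈ nmPoly N A y, z ∈ V := by
    intro z hz
    have h1 : nmPoly N A y ≤ V.toSubring := by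
      unfold nmPoly
      rw [Subring.closure_le]
      rintro z (⟨c, hc, rfl⟩ | hz)
      · exact hA c hc
      · rw [Set.mem_singleton_iff] at hz
        rw [hz]
        exact hy
    exact h1 hz
  obtain ⟨P, hP, hroot⟩ := (mem_nmChart_iff N A y f).1 hf
  let φ : ↥(nmPoly N A y) →+* ↥V :=
    RingHom.codRestrict (nmPoly N A y).subtype V (fun z => hle z z.2)
  have hint : IsIntegral ↥V f := by
    refine ⟨P.map φ, hP.map φ, ?_⟩
    rw [Polynomial.eval₂_map]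
    exact hroot
  obtain ⟨z, hz⟩ := IsIntegrallyClosed.isIntegral_iff.mp hint
  rw [← hz]
  exact z.2

variable [NeZero N] (P : Place Qb (FLb N)) (hdeg : P.deg = 1)

/-- The chart coordinate of `P` has a value in `A` at `P`. -/
theorem nmY_mem_nmComp : nmY A P ∈ nmComp A P hdeg := by
  classical
  unfold nmY
  split_ifs with h
  · exact h
  · exact ((nmComp A P hdeg).mem_or_inv_mem (nmJ N)).resolve_left h

/-- Every element of the chart of `P` has a value in `A` at `P`. -/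
theorem nmChart_le_nmComp {f : FLb N} (hf : f ∈ nmChart N A (nmY A P)) :
    f ∈ nmComp A P hdeg :=
  nmChart_le_valuationSubring A (nmComp A P hdeg) (nmY A P)
    (fun c hc => algebraMap_mem_nmComp A P hdeg hc) (nmY_mem_nmComp A P hdeg) hf

end Chart

/-! ### Two small facts on `A ∩ K₁` -/

section Comap

variable {K₁ : Type} [Field K₁] (ι : K₁ →+* Qb) (A : ValuationSubring Qb)

/-- a non-unit of `A ∩ K₁` is a non-unit of `A` -/
theorem tot_mem_nonunits_of_not_isUnit (c : ↥(A.comap ι)) (hc : ¬ IsUnit c) :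
    ι (c : K₁) ∈ A.nonunits := by
  rw [ValuationSubring.mem_nonunits_iff]
  by_contra hnot
  apply hc
  have hcA : ι (c : K₁) ∈ A := c.2
  have h1 : A.valuation (ι (c : K₁)) ≤ 1 := (ValuationSubring.valuation_le_one_iff A _).2 hcA
  have h2 : A.valuation (ι (c : K₁)) = 1 := le_antisymm h1 (not_lt.1 hnot)
  have hc0 : (c : K₁) ≠ 0 := by
    intro h0
    rw [h0, map_zero, map_zero] at h2
    exact zero_ne_one h2
  have hinv : (c : K₁)⁻¹ ∈ A.comap ι := by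
    rw [ValuationSubring.mem_comap, map_inv₀, ← ValuationSubring.valuation_le_one_iff,
      map_inv₀, h2, inv_one]
  exact isUnit_iff_exists_inv.mpr ⟨⟨(c : K₁)⁻¹, hinv⟩, Subtype.ext (mul_inv_cancel₀ hc0)⟩

/-- `q` is not a unit of `A ∩ K₁` -/
theorem tot_not_isUnit_natCast {q : ℕ} (hA : A.LiesOverPrime q) :
    ¬ IsUnit ((q : ℕ) : ↥(A.comap ι)) := by
  intro hu
  obtain ⟨c, hc⟩ := isUnit_iff_exists_inv.mp hu
  have hc' : (q : K₁) * (c : K₁) = 1 := by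
    have := congrArg (fun z : ↥(A.comap ι) => (z : K₁)) hc
    simpa using this
  have h2 : (q : Qb) ∈ A.nonunits := hA
  rw [ValuationSubring.mem_nonunits_iff] at h2
  have h3 : A.valuation (ι (c : K₁)) ≤ 1 := (ValuationSubring.valuation_le_one_iff A _).mpr c.2
  have h4 : A.valuation ((q : Qb) * ι (c : K₁)) = 1 := by
    rw [← map_natCast ι, ← map_mul, hc', map_one, map_one]
  rw [map_mul] at h4
  have h5 : A.valuation (q : Qb) * A.valuation (ι (c : K₁)) < 1 :=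
    lt_of_le_of_lt (mul_le_of_le_one_right' h3) h2
  rw [h4] at h5
  exact lt_irrefl _ h5

end Comap

/-! ### [TOTI] -/

section Main

variable (M p : ℕ) [NeZero M] [NeZero p]

/-- **[TOTI]** : every centre lies on `C_∞` or on `C_0` (ideal form). -/
theorem nmTotIdeal : NmTotIdealStatement M p := by
  classical
  intro A h P
  haveI hN : NeZero (M * p) := ⟨Nat.mul_ne_zero (NeZero.ne M) (NeZero.ne p)⟩
  have hdeg : P.deg = 1 := Fermat.Agent.H70.SS.ss_deg_eq_one_bar (M * p) P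
  by_contra hcon
  rw [not_or] at hcon
  obtain ⟨h1, h2⟩ := hcon
  unfold NmIdealOo at h1
  unfold NmIdealZero at h2
  push Not at h1 h2
  obtain ⟨f, hfB, hfV, hfred, hfP⟩ := h1
  obtain ⟨g, hgB, hgV, hgred, hgP⟩ := h2
  -- the values
  have hfC : f ∈ nmComp A P hdeg := nmChart_le_nmComp A P hdeg hfB
  have hgC : g ∈ nmComp A P hdeg := nmChart_le_nmComp A P hdeg hgB
  have hfu : (nmComp A P hdeg).valuation f = 1 := by
    refine le_antisymm ((ValuationSubring.valuation_le_one_iff _ _).2 hfC) (not_lt.1 fun hlt => ?_)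
    exact hfP ((mem_nonunits_nmComp_iff A P hdeg).1
      ((ValuationSubring.mem_nonunits_iff _).2 hlt))
  have hgu : (nmComp A P hdeg).valuation g = 1 := by
    refine le_antisymm ((ValuationSubring.valuation_le_one_iff _ _).2 hgC) (not_lt.1 fun hlt => ?_)
    exact hgP ((mem_nonunits_nmComp_iff A P hdeg).1
      ((ValuationSubring.mem_nonunits_iff _).2 hlt))
  -- the rational chart coordinate
  let wj : ↥(modularFunctionFieldFull (M * p)) :=
    ⟨qExpand ℚ 1 jq, jqd_mem_full (M * p) (one_dvd (M * p))⟩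
  have hJ : nmJ (M * p) = Fermat.Agent.H62.SS.ratBar (modularFunctionFieldFull (M * p)) wj :=
    rfl
  obtain ⟨w, hw, hwj⟩ : ∃ w : ↥(modularFunctionFieldFull (M * p)),
      nmY A P = Fermat.Agent.H62.SS.ratBar (modularFunctionFieldFull (M * p)) w ∧
        (w = wj ∨ w = wj⁻¹) := by
    unfold nmY
    split_ifs with hc
    · exact ⟨wj, hJ, Or.inl rfl⟩
    · exact ⟨wj⁻¹, by rw [map_inv₀, hJ], Or.inr rfl⟩
  have hfB' := hfB
  have hgB' := hgB
  rw [hw] at hfB' hgB'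
  obtain ⟨Kf, hKf, hf₁⟩ := Fermat.Agent.H66.ORD.exists_descent_nmChart w f hfB'
  obtain ⟨Kg, hKg, hg₁⟩ := Fermat.Agent.H66.ORD.exists_descent_nmChart w g hgB'
  haveI := hKf
  haveI := hKg
  haveI hKfd : FiniteDimensional ℚ ↥(Kf ⊔ Kg) := IntermediateField.finiteDimensional_sup Kf Kg
  obtain ⟨f₁, hff, hf₁B⟩ := hf₁ (Kf ⊔ Kg) le_sup_left
  obtain ⟨g₁, hgg, hg₁B⟩ := hg₁ (Kf ⊔ Kg) le_sup_right
  haveI hdvr : IsDiscreteValuationRing ↥(A.comap (algebraMap ↥(Kf ⊔ Kg) Qb)) :=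
    Fermat.Agent.H34.modelDVR ↥(Kf ⊔ Kg) (algebraMap ↥(Kf ⊔ Kg) Qb) A p h.prime h.liesOver
  letI := modelAlgebra ↥(Kf ⊔ Kg) (A.comap (algebraMap ↥(Kf ⊔ Kg) Qb)) (M * p)
  haveI := modelAlgebra_isScalarTower ↥(Kf ⊔ Kg) (A.comap (algebraMap ↥(Kf ⊔ Kg) Qb)) (M * p)
  obtain ⟨W₁, hW₁, hW₁c⟩ :=
    Fermat.Agent.H66.ORD.exists_modelW M p h.cop (algebraMap ↥(Kf ⊔ Kg) Qb)
  obtain ⟨ϖ, hϖ⟩ :=
    IsDiscreteValuationRing.exists_irreducible ↥(A.comap (algebraMap ↥(Kf ⊔ Kg) Qb))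
  have hqA : ¬ IsUnit ((p : ℕ) : ↥(A.comap (algebraMap ↥(Kf ⊔ Kg) Qb))) :=
    tot_not_isUnit_natCast (algebraMap ↥(Kf ⊔ Kg) Qb) A h.liesOver
  have hpM : ¬ p ∣ M := by
    intro hd
    have h1 : p ∣ Nat.gcd M p := Nat.dvd_gcd hd dvd_rfl
    rw [Nat.Coprime.gcd_eq_one h.cop] at h1
    exact h.prime.one_lt.ne' (Nat.dvd_one.1 h1)
  -- the memberships
  have hf₁V : f₁ ∈ (vInf ↥(Kf ⊔ Kg) ↥(A.comap (algebraMap ↥(Kf ⊔ Kg) Qb)) (M * p)).nonunits := by
    have hmem : klBc (algebraMap ↥(Kf ⊔ Kg) Qb) (modularFunctionFieldFull (M * p)) f₁ ∈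
        gaussOBar (M * p) A := by
      rw [hff]
      exact hfV
    rw [← Fermat.Agent.H66.ORD.bc_gaussRedBar_eq_zero_iff (algebraMap ↥(Kf ⊔ Kg) Qb) A (M * p)
      f₁ hmem]
    have e : (⟨klBc (algebraMap ↥(Kf ⊔ Kg) Qb) (modularFunctionFieldFull (M * p)) f₁, hmem⟩ :
        ↥(gaussOBar (M * p) A)) = ⟨f, hfV⟩ := Subtype.ext hff
    rw [e]
    exact (nmRedOo_eq_zero_iff (M * p) A ⟨f, hfV⟩).1 hfred
  have hg₁V : g₁ ∈
      (vZero ↥(Kf ⊔ Kg) ↥(A.comap (algebraMap ↥(Kf ⊔ Kg) Qb)) (M * p) W₁).nonunits := by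
    have hmem : klBc (algebraMap ↥(Kf ⊔ Kg) Qb) (modularFunctionFieldFull (M * p)) g₁ ∈
        nmV0 M p h.cop A := by
      rw [hgg]
      exact hgV
    rw [← Fermat.Agent.H66.ORD.bc_nmRed0_eq_zero_iff M p h.cop (algebraMap ↥(Kf ⊔ Kg) Qb) A
      W₁ hW₁c g₁ hmem]
    have e : (⟨klBc (algebraMap ↥(Kf ⊔ Kg) Qb) (modularFunctionFieldFull (M * p)) g₁, hmem⟩ :
        ↥(nmV0 M p h.cop A)) = ⟨g, hgV⟩ := Subtype.ext hgg
    rw [e]
    exact hgred
  -- the model relation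
  have hy : Fermat.Agent.H62.SS.ratK (K₁ := ↥(Kf ⊔ Kg)) (modularFunctionFieldFull (M * p)) w =
        Fermat.Agent.H62.SS.ratK (K₁ := ↥(Kf ⊔ Kg)) (modularFunctionFieldFull (M * p)) wj ∨
      Fermat.Agent.H62.SS.ratK (K₁ := ↥(Kf ⊔ Kg)) (modularFunctionFieldFull (M * p)) w =
        (Fermat.Agent.H62.SS.ratK (K₁ := ↥(Kf ⊔ Kg)) (modularFunctionFieldFull (M * p)) wj)⁻¹ := by
    rcases hwj with rfl | rfl
    · exact Or.inl rfl
    · exact Or.inr (map_inv₀ _ _)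
  have hx : ((Fermat.Agent.H62.SS.ratK (K₁ := ↥(Kf ⊔ Kg)) (modularFunctionFieldFull (M * p)) wj :
      ModelField ↥(Kf ⊔ Kg) (M * p)) : LaurentSeries ↥(Kf ⊔ Kg)) = coeffEmb ↥(Kf ⊔ Kg) jq := by
    show coeffEmb ↥(Kf ⊔ Kg) (qExpand ℚ 1 jq) = coeffEmb ↥(Kf ⊔ Kg) jq
    rw [qExpand_one_apply]
  obtain ⟨c, hcB, hc⟩ := model_mul_eq_pi_mul M p ↥(Kf ⊔ Kg)
    ↥(A.comap (algebraMap ↥(Kf ⊔ Kg) Qb)) h.prime hpM hqA ϖ hϖ
    (Fermat.Agent.H62.SS.ratK (K₁ := ↥(Kf ⊔ Kg)) (modularFunctionFieldFull (M * p)) wj) hx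
    W₁ hW₁ _ hy hf₁B hg₁B hf₁V hg₁V
  -- back to `ℚ̄`
  have hcB' : klBc (algebraMap ↥(Kf ⊔ Kg) Qb) (modularFunctionFieldFull (M * p)) c ∈
      nmChart (M * p) A (nmY A P) := by
    rw [hw, ← Fermat.Agent.H62.SS.klBc_ratK (algebraMap ↥(Kf ⊔ Kg) Qb)
      (modularFunctionFieldFull (M * p)) w]
    exact Fermat.Agent.H66.ORD.bc_mem_nmChart (M * p) A (algebraMap ↥(Kf ⊔ Kg) Qb) _ c hcB
  have hfg : f * g = algebraMap Qb (FLb (M * p))
      (algebraMap ↥(Kf ⊔ Kg) Qb ((ϖ : ↥(A.comap (algebraMap ↥(Kf ⊔ Kg) Qb))) : ↥(Kf ⊔ Kg))) *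
        klBc (algebraMap ↥(Kf ⊔ Kg) Qb) (modularFunctionFieldFull (M * p)) c := by
    rw [← hff, ← hgg, ← map_mul, hc, map_mul]
    congr 1
    rw [IsScalarTower.algebraMap_apply ↥(A.comap (algebraMap ↥(Kf ⊔ Kg) Qb)) ↥(Kf ⊔ Kg)
      (ModelField ↥(Kf ⊔ Kg) (M * p)), Fermat.Agent.H62.SS.klBc_algebraMap']
    rfl
  have hπ : (nmComp A P hdeg).valuation (algebraMap Qb (FLb (M * p))
      (algebraMap ↥(Kf ⊔ Kg) Qb ((ϖ : ↥(A.comap (algebraMap ↥(Kf ⊔ Kg) Qb))) : ↥(Kf ⊔ Kg)))) < 1 := by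
    rw [← ValuationSubring.mem_nonunits_iff, mem_nonunits_nmComp_iff]
    exact ⟨_, tot_mem_nonunits_of_not_isUnit (algebraMap ↥(Kf ⊔ Kg) Qb) A ϖ hϖ.not_isUnit,
      nm_hasValue_const P _⟩
  have hcv : (nmComp A P hdeg).valuation
      (klBc (algebraMap ↥(Kf ⊔ Kg) Qb) (modularFunctionFieldFull (M * p)) c) ≤ 1 :=
    (ValuationSubring.valuation_le_one_iff _ _).2 (nmChart_le_nmComp A P hdeg hcB')
  have hone : (nmComp A P hdeg).valuation (f * g) = 1 := by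
    rw [map_mul, hfu, hgu, mul_one]
  rw [hfg, map_mul] at hone
  have hlt : (nmComp A P hdeg).valuation (algebraMap Qb (FLb (M * p))
      (algebraMap ↥(Kf ⊔ Kg) Qb ((ϖ : ↥(A.comap (algebraMap ↥(Kf ⊔ Kg) Qb))) : ↥(Kf ⊔ Kg)))) *
      (nmComp A P hdeg).valuation
        (klBc (algebraMap ↥(Kf ⊔ Kg) Qb) (modularFunctionFieldFull (M * p)) c) < 1 :=
    lt_of_le_of_lt (mul_le_of_le_one_right' hcv) hπ
  rw [hone] at hlt
  exact lt_irrefl _ hlt

end Main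

end Fermat.Agent.H45.ORD

end
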